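import Fermat.Statements.S02

set_option autoImplicit false
open FreyPackage

namespace Fermat.Agent.S02

/-- Final step: coprime, `b` even (so `a` odd). -/
lemma frey_of_coprime_even {a b c : ℤ} (ha : a ≠ 0) (hb : b ≠ 0) (hc : c ≠ 0) {p : ℕ}
    (pp : p.Prime) (hp5 : 5 ≤ p) (H : a ^ p + b ^ p = c ^ p) (hab : gcd a b = 1)
    (hbeven : (2 : ℤ) ∣ b) : Nonempty FreyPackage := by
  have hpodd : Odd p := pp.odd_of_ne_two (by omega)
  have hb2 : (b : ZMod 2) = 0 := (ZMod.intCast_zmod_eq_zero_iff_dvd b 2).2 hbeven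
  -- a is odd
  have haodd : ¬ (2 : ℤ) ∣ a := by
    intro h2a
    have : (2 : ℤ) ∣ gcd a b := dvd_gcd h2a hbeven
    rw [hab] at this
    norm_num at this
  have hamod : a % 4 = 1 ∨ a % 4 = 3 := by
    have : a % 2 = 1 := by omega
    omega
  rcases hamod with h1 | h3
  · -- negate everything
    refine ⟨⟨-a, -b, -c, neg_ne_zero.2 ha, neg_ne_zero.2 hb, neg_ne_zero.2 hc, p, pp, hp5, ?_, ?_,
      ?_, ?_⟩⟩
    · rw [hpodd.neg_pow, hpodd.neg_pow, hpodd.neg_pow, ← H]; ring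
    · rw [gcd_neg, neg_gcd]; exact hab
    · have h4 : ((-a - 3 : ℤ) : ZMod 4) = 0 := by
        rw [ZMod.intCast_zmod_eq_zero_iff_dvd]
        omega
      have : ((-a : ℤ) : ZMod 4) = ((-a - 3 : ℤ) : ZMod 4) + 3 := by push_cast; ring
      rw [this, h4, zero_add]
    · rw [Int.cast_neg, hb2, neg_zero]
  · refine ⟨⟨a, b, c, ha, hb, hc, p, pp, hp5, H, hab, ?_, hb2⟩⟩
    have h4 : ((a - 3 : ℤ) : ZMod 4) = 0 := by
      rw [ZMod.intCast_zmod_eq_zero_iff_dvd]
      omega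
    have : ((a : ℤ) : ZMod 4) = ((a - 3 : ℤ) : ZMod 4) + 3 := by push_cast; ring
    rw [this, h4, zero_add]

/-- Coprime case. -/
lemma frey_of_coprime {a b c : ℤ} (ha : a ≠ 0) (hb : b ≠ 0) (hc : c ≠ 0) {p : ℕ}
    (pp : p.Prime) (hp5 : 5 ≤ p) (H : a ^ p + b ^ p = c ^ p) (hab : gcd a b = 1) :
    Nonempty FreyPackage := by
  have hpodd : Odd p := pp.odd_of_ne_two (by omega)
  have hppos : 0 < p := pp.pos
  by_cases hb2 : (2 : ℤ) ∣ b
  · exact frey_of_coprime_even ha hb hc pp hp5 H hab hb2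
  by_cases ha2 : (2 : ℤ) ∣ a
  · -- swap a and b
    refine frey_of_coprime_even hb ha hc pp hp5 (by rw [add_comm]; exact H) ?_ ha2
    rw [gcd_comm]; exact hab
  · -- both odd, so c is even: a ^ p + (-c) ^ p = (-b) ^ p
    have hc2 : (2 : ℤ) ∣ c := by
      have hao : Odd a := by
        rw [← Int.not_even_iff_odd, even_iff_two_dvd]; exact ha2
      have hbo : Odd b := by
        rw [← Int.not_even_iff_odd, even_iff_two_dvd]; exact hb2
      have hce : Even (c ^ p) := by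
        rw [← H]
        exact (hao.pow).add_odd (hbo.pow)
      have : Even c := (Int.even_pow.1 hce).1
      exact even_iff_two_dvd.1 this
    have hac : gcd a c = 1 := by
      rw [← FreyPackage.gcdab_eq_gcdac hppos H]; exact hab
    refine frey_of_coprime_even (b := -c) (c := -b) ha (neg_ne_zero.2 hc) (neg_ne_zero.2 hb) pp hp5
      ?_ ?_ ((dvd_neg).2 hc2)
    · rw [hpodd.neg_pow, hpodd.neg_pow, ← H]; ring
    · rw [gcd_neg]; exact hac

theorem result (a b c : ℤ) (ha : a ≠ 0) (hb : b ≠ 0) (hc : c ≠ 0) (p : ℕ) (pp : p.Prime) (hp5 : 5 ≤ p) (H : a ^ p + b ^ p = c ^ p) : Nonempty FreyPackage := by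
  have hppos : 0 < p := pp.pos
  -- divide out by the gcd
  set d : ℤ := gcd a b with hd
  have hd0 : d ≠ 0 := by
    intro h0
    rw [hd] at h0
    exact ha ((gcd_eq_zero_iff a b).1 h0).1
  obtain ⟨a', ha'⟩ : d ∣ a := gcd_dvd_left a b
  obtain ⟨b', hb'⟩ : d ∣ b := gcd_dvd_right a b
  have hdc : d ∣ c := by
    rw [← Int.pow_dvd_pow_iff hppos.ne', ← H]
    exact dvd_add (pow_dvd_pow_of_dvd (gcd_dvd_left a b) p) (pow_dvd_pow_of_dvd (gcd_dvd_right a b) p)
  obtain ⟨c', hc'⟩ := hdc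
  have ha'0 : a' ≠ 0 := by rintro rfl; exact ha (by rw [ha', mul_zero])
  have hb'0 : b' ≠ 0 := by rintro rfl; exact hb (by rw [hb', mul_zero])
  have hc'0 : c' ≠ 0 := by rintro rfl; exact hc (by rw [hc', mul_zero])
  have H' : a' ^ p + b' ^ p = c' ^ p := by
    have : d ^ p * (a' ^ p + b' ^ p) = d ^ p * c' ^ p := by
      rw [mul_add, ← mul_pow, ← mul_pow, ← mul_pow, ← ha', ← hb', ← hc', H]
    exact mul_left_cancel₀ (pow_ne_zero p hd0) this
  have hab' : gcd a' b' = 1 := by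
    have h1 : gcd (d * a') (d * b') = normalize d * gcd a' b' := gcd_mul_left d a' b'
    rw [← ha', ← hb', ← hd] at h1
    have h2 : normalize d = d := by rw [hd]; exact normalize_gcd a b
    rw [h2] at h1
    have h3 : d * 1 = d * gcd a' b' := by rw [mul_one]; exact h1
    exact (mul_left_cancel₀ hd0 h3).symm
  exact frey_of_coprime ha'0 hb'0 hc'0 pp hp5 H' hab'

end Fermat.Agent.S02
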