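import Fermat.Statements.S10
import Fermat.Agent.FLTSmall.FLT5
import Fermat.Agent.FLTSmall.FLT7
import Fermat.Agent.FLTSmall.FLT13

set_option autoImplicit false
open WeierstrassCurve WeierstrassCurve.Affine WeierstrassCurve.Affine.Point
open CuspForm ModularFormClass UpperHalfPlane
open FreyPackage

namespace Fermat.Agent.S10

theorem result (P : FreyPackage) (hp : P.p = 5 ∨ P.p = 7 ∨ P.p = 13) : ¬ HasGaloisStableCofixedLine (K := AlgebraicClosure ℚ) ℚ P.freyCurve P.p := by
  exfalso
  have h := P.hFLT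
  have hab : IsCoprime P.a P.b := by
    have h1 := P.hgcdab
    rw [← Int.coe_gcd] at h1
    exact Int.isCoprime_iff_gcd_eq_one.2 (by exact_mod_cast h1)
  have h0 : P.a * P.b * P.c ≠ 0 := mul_ne_zero (mul_ne_zero P.ha0 P.hb0) P.hc0
  rcases hp with hp | hp | hp
  · rw [hp] at h
    exact h0 (Fermat.Agent.FLTSmall.flt_five_int P.a P.b P.c hab h)
  · rw [hp] at h
    exact h0 (Fermat.Agent.FLTSmall.flt_seven_int P.a P.b P.c hab h)
  · rw [hp] at h
    exact h0 (Fermat.Agent.FLTSmall.flt_thirteen_int P.a P.b P.c hab h)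

end Fermat.Agent.S10
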