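import Fermat.Statements.S14
import Fermat.Agent.S14.Assembly
import Fermat.Agent.S14.FI
import Fermat.Agent.S14.Crossing
import Fermat.Agent.S14.I2Wire
import Fermat.Agent.S14.LPExport3

set_option autoImplicit false
open ExtCitation

namespace Fermat.Agent.S14

theorem result {p : ℕ} [Fact p.Prime] (h3 : 3 ≤ p) :
    ExtCitation.ExtVanishingCts p :=
  s14_assembly s14_fi_main (s14_cr_main (s14_i2_of_LP3 s14_fi_main s14_lp_stmt_LP3)) h3

end Fermat.Agent.S14
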