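import Fermat.Statements.S22
import Fermat.Agent.S22.Algebra
import Fermat.Agent.S22.Lattice
import Fermat.Agent.S22.Inject
import Fermat.Agent.S22.HeckeCompat
import Fermat.Agent.S22.Trivial

set_option autoImplicit false
open CuspForm

namespace Fermat.Agent.S22

theorem result (N : ℕ) [NeZero N] (k : ℤ) (S : Set ℕ) :
    Module.Finite ℤ (CuspForm.heckeAlgebra N k S) := by
  rcases lt_or_ge k 2 with hk | hk
  · exact moduleFinite_heckeAlgebra_of_lt_two N hk S
  · obtain ⟨w, rfl⟩ : ∃ w : ℕ, k = (w : ℤ) + 2 := ⟨(k - 2).toNat, by omega⟩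
    exact finite_adjoin_of_dual_lattice (CuspForm.heckeGenerators N ((w : ℤ) + 2) S)
      (periodLattice N w) (periodLattice_fg N w) (periodLattice_separates N w)
      (periodLattice_stable N w S)

end Fermat.Agent.S22
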