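import Fermat.Statements.S28
import Fermat.Agent.S28.ChartMain
import Fermat.Agent.S28.VTwo
import Fermat.Agent.S28.IGMain
import Fermat.Agent.S28.NBMain
import Fermat.Agent.S28.UBound
import Fermat.Agent.S28.MPMain
import Fermat.Agent.S28.CABridge
import Fermat.Agent.S28.CBMain
import Fermat.Agent.S28.Theta
import Fermat.Agent.S28.CharZeroMain

set_option autoImplicit false
open AlgebraicGeometry CategoryTheory CategoryTheory.Limits ModularCurve ModularCurve.IgusaScheme
noncomputable section
set_option autoImplicit false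
open ModularCurve ModularCurve.IgusaScheme

namespace Fermat.Agent.S28

set_option maxHeartbeats 4000000 in
set_option synthInstance.maxHeartbeats 400000 in
theorem result
    (N : ℕ) [NeZero N] (ℓ : ℕ) [Fact ℓ.Prime] (hℓN : ¬ ℓ ∣ N)
    (K : Type) [Field K] [CharP K ℓ] [Algebra ↥(GaloisRep.ratLocalizedAt ℓ) K] :
    IsIntegral ↑(pullback (igusaTo N ℓ)
      (Spec.map (CommRingCat.ofHom (algebraMap ↥(GaloisRep.ratLocalizedAt ℓ) K)))) := by
  have hNB : s28_stmt_NB := fun k _ p _ hp hpk => s28nb_main s28cb_main s28cg_main k p hp hpk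
  have hIG : s28_stmt_IG := s28ig_main s28ca_main hNB s28c0_main s28ub_main
  exact s28w_main ℓ N K (s28v_V2 hIG ℓ N hℓN) (s28mp_jq ℓ) (s28mp_jqInv ℓ)

end Fermat.Agent.S28
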