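import Fermat.Statements.S49
import Fermat.Agent.S49.Hecke

set_option autoImplicit false
open CuspForm EisensteinWeightOne CongruenceSubgroup ModularFormClass
open FLT FLT.AbstractIntegralStructure

namespace Fermat.Agent.S49

theorem result
    {N : ℕ} [NeZero N] (h : CuspForm.HasIntegralBasis N) {a : ℕ → ℤ}
    (heig : FormalHecke.IsEigensystem
      (fun ℓ => if ℓ ∣ N then 0 else ((chiNegThree ℓ : ℤ) : ℤ)) a)
    (hreal : CuspForm.IsLatticeRealized N a) :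
    ∃ (f : CuspForm (Gamma0 N) 2) (_ : f.IsNormalizedEigenform)
      (𝔪' : Ideal (integralClosure ℤ ℂ)), 𝔪'.IsMaximal ∧
      ((3 : ℕ) : integralClosure ℤ ℂ) ∈ 𝔪' ∧
      ∀ (ℓ : ℕ) (_ : ℓ.Prime) (_ : ¬ ℓ ∣ N),
        ∃ c : integralClosure ℤ ℂ, (c : ℂ) = ModularFormClass.qCoeff f ℓ ∧
          c - (a ℓ : integralClosure ℤ ℂ) ∈ 𝔪' := by
  classical
  obtain ⟨f₀, hf₀, af, haf, hdiv⟩ := hreal
  -- congruence `af ≡ a mod 3`
  have hcong : ∀ n, ((af n : ℤ) : ZMod 3) = ((a n : ℤ) : ZMod 3) := by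
    intro n
    have h1 : (3 : ℤ) ∣ af n - a n := by
      have := dvd_add (hdiv n) (bridgeProduct_coeff_dvd a n)
      simpa using this
    have h2 := (ZMod.intCast_zmod_eq_zero_iff_dvd (af n - a n) 3).mpr (by exact_mod_cast h1)
    push_cast at h2
    exact sub_eq_zero.mp h2
  have ha1 : ((af 1 : ℤ) : ZMod 3) = 1 := by
    rw [hcong 1, heig.1]
    simp
  haveI : FiniteDimensional ℂ (CuspForm (Gamma0 N) 2) := finiteDimensional_of_hasIntegralBasis h
  -- the Hecke algebra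
  set 𝕋 := heckeAlgebra N 2 ∅ with h𝕋
  -- the mod 3 character
  obtain ⟨θ, hθ⟩ := exists_ringHom_of_rel (A := 𝕋) (F := ZMod 3)
    (fun T c => Rel f₀ (T : Module.End ℂ (CuspForm (Gamma0 N) 2)) c)
    (fun T => rel_total f₀ af a haf hcong heig T.2)
    (fun T c c' hc hc' => rel_unique f₀ (af 1) (haf 1) ha1 hc hc')
    (rel_one f₀)
    (fun T T' c c' hc hc' => rel_add f₀ hc hc')
    (fun T T' c c' hc hc' => rel_mul f₀ T.2 hc hc')
  have hθsurj : Function.Surjective θ := by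
    intro z
    obtain ⟨c, rfl⟩ := ZMod.intCast_surjective z
    exact ⟨(c : 𝕋), map_intCast θ c⟩
  haveI h𝔪max : (RingHom.ker θ).IsMaximal := RingHom.ker_isMaximal_of_surjective θ hθsurj
  -- finiteness of the Hecke algebra
  haveI hfin : Module.Finite ℤ 𝕋 :=
    finite_of_lattice (CuspForm.intLattice N 2) (CuspForm.intLattice_fg N 2)
      (span_intLattice_eq_top h) 𝕋
      (fun T hT x hx => CuspForm.mem_intLattice_of_mem_heckeAlgebra (by norm_num) hT hx)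
  have hintegral : ∀ T : 𝕋, IsIntegral ℤ T := fun T => Algebra.IsIntegral.isIntegral T
  -- the action
  let ρ : 𝕋 →+* Module.End ℂ (CuspForm (Gamma0 N) 2) := 𝕋.val.toRingHom
  have hρ : ∀ T : 𝕋, ρ T = (T : Module.End ℂ (CuspForm (Gamma0 N) 2)) := fun T => rfl
  have hρker : RingHom.ker ρ ≤ RingHom.ker θ := by
    intro T hT
    rw [RingHom.mem_ker, hρ] at hT
    have : T = 0 := Subtype.ext hT
    rw [this]
    exact Ideal.zero_mem _
  obtain ⟨v, hv0, hev, hann⟩ := exists_eigenvector_ann_le ρ (RingHom.ker θ) hρker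
  obtain ⟨χ, hχ⟩ := exists_character ρ v hv0 hev
  have hχker : RingHom.ker χ ≤ RingHom.ker θ := by
    intro T hT
    apply hann
    rw [hχ, RingHom.mem_ker.mp hT, zero_smul]
  obtain ⟨χ', 𝔪', hχ', h𝔪', hcomap⟩ := exists_maximal_over χ
    (fun T => map_isIntegral_int χ (hintegral T)) (RingHom.ker θ) hχker
  -- the eigenvector relations
  have hTv : ∀ (p : ℕ) (hp : p.Prime) (hpN : ¬ p ∣ N),
      heckeTLin 2 hp hpN v = χ (heckeAlgebra.T hp hpN (Set.notMem_empty p)) • v :=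
    fun p hp hpN => hχ (heckeAlgebra.T hp hpN (Set.notMem_empty p))
  have hUv : ∀ (p : ℕ) (hp : p.Prime) (hpN : p ∣ N),
      heckeULin 2 hpN v = χ (heckeAlgebra.U hp hpN (Set.notMem_empty p)) • v :=
    fun p hp hpN => hχ (heckeAlgebra.U hp hpN (Set.notMem_empty p))
  have hc1 : qCoeff ⇑v 1 ≠ 0 :=
    qCoeff_one_ne_zero_of_eigen v hv0 (fun p hp hpN => ⟨_, hTv p hp hpN⟩)
      (fun p hp hpN => ⟨_, hUv p hp hpN⟩)
  set f : CuspForm (Gamma0 N) 2 := (qCoeff ⇑v 1)⁻¹ • v with hf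
  have hTf : ∀ (p : ℕ) (hp : p.Prime) (hpN : ¬ p ∣ N),
      heckeTLin 2 hp hpN f = χ (heckeAlgebra.T hp hpN (Set.notMem_empty p)) • f := by
    intro p hp hpN
    rw [hf, map_smul, hTv p hp hpN, smul_comm]
  have hUf : ∀ (p : ℕ) (hp : p.Prime) (hpN : p ∣ N),
      heckeULin 2 hpN f = χ (heckeAlgebra.U hp hpN (Set.notMem_empty p)) • f := by
    intro p hp hpN
    rw [hf, map_smul, hUv p hp hpN, smul_comm]
  have hf1 : qCoeff ⇑f 1 = 1 := by
    rw [hf, qCoeff_smul', inv_mul_cancel₀ hc1]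
  have hnorm : f.IsNormalizedEigenform :=
    isNormalizedEigenform_of_eigen f hf1 (fun p hp hpN => ⟨_, hTf p hp hpN⟩)
      (fun p hp hpN => ⟨_, hUf p hp hpN⟩)
  have hmem : ∀ T : 𝕋, θ T = 0 → χ' T ∈ 𝔪' := by
    intro T hT
    have : T ∈ Ideal.comap χ' 𝔪' := by
      rw [hcomap]
      exact RingHom.mem_ker.mpr hT
    exact this
  refine ⟨f, hnorm, 𝔪', h𝔪', ?_, ?_⟩
  · have h3 := hmem ((3 : ℕ) : 𝕋) (by
      rw [map_natCast]
      decide)
    rwa [map_natCast] at h3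
  · intro ℓ hℓ hℓN
    refine ⟨χ' (heckeAlgebra.T hℓ hℓN (Set.notMem_empty ℓ)), ?_, ?_⟩
    · rw [hχ']
      have h1 := qCoeff_T hℓ hℓN f 1
      rw [hTf ℓ hℓ hℓN, qCoeff_smul', hf1, mul_one, one_mul,
        if_neg (by simpa using hℓ.one_lt.ne' : ¬ ℓ ∣ 1), add_zero] at h1
      exact h1
    · have h1 : θ (heckeAlgebra.T hℓ hℓN (Set.notMem_empty ℓ) - ((a ℓ : ℤ) : 𝕋)) = 0 := by
        rw [map_sub, map_intCast, hθ _ (a ℓ) (rel_T f₀ af a haf hcong heig hℓ hℓN), sub_self]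
      have h2 := hmem _ h1
      rwa [map_sub, map_intCast] at h2

end Fermat.Agent.S49
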