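import Fermat.Statements.S51
import Fermat.Agent.S51.Galois
import Fermat.Agent.S51.Param
import Fermat.Agent.S51.Semistable
import Fermat.Agent.S51.X015

set_option autoImplicit false
open WeierstrassCurve WeierstrassCurve.Affine WeierstrassCurve.Affine.Point
open CuspForm ModularFormClass UpperHalfPlane
open WeierstrassCurve

namespace Fermat.Agent.S51

theorem result (W : WeierstrassCurve ℤ) (hΔ : W.Δ ≠ 0) (hW : W.IsSemistableModel) : W.ModRepIsIrreducible 3 ∨ W.ModRepIsIrreducible 5 := by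
  by_contra hcon
  rw [not_or] at hcon
  obtain ⟨h3, h5⟩ := hcon
  set E : WeierstrassCurve ℚ := W.map (Int.castRingHom ℚ) with hE
  have hΔE : E.Δ = (W.Δ : ℚ) := by rw [hE, WeierstrassCurve.map_Δ]; rfl
  have hc₄E : E.c₄ = (W.c₄ : ℚ) := by rw [hE, WeierstrassCurve.map_c₄]; rfl
  have hΔ' : E.Δ ≠ 0 := by rw [hΔE]; exact_mod_cast hΔ
  obtain ⟨x₀, hx₀⟩ := exists_rat_root_of_not_irr3 E hΔ' h3
  obtain ⟨u, v, huv, hfix⟩ := exists_rat_fix_of_not_irr5 E hΔ' h5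
  obtain ⟨t₃, ht₃, hj₃⟩ := param3 E hΔ' x₀ hx₀
  obtain ⟨t₅, ht₅, hj₅⟩ := param5 E hΔ' u v huv hfix
  have hmem := x015_j (E.c₄ ^ 3 / E.Δ) t₃ t₅ ht₃ ht₅
    (by field_simp; linear_combination hj₃) (by field_simp; linear_combination hj₅)
  refine not_semistable_of_j W hΔ hW (E.c₄ ^ 3 / E.Δ) ?_ hmem
  rw [← hΔE, ← hc₄E]; field_simp

end Fermat.Agent.S51
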