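import Fermat.Statements.S53
import Fermat.Agent.S53.Core
import Fermat.Agent.S53.Limit

set_option autoImplicit false
set_option autoImplicit false
open GaloisRep

namespace Fermat.Agent.S53

theorem result
    (𝒪 : Type) [CommRing 𝒪] [IsDomain 𝒪] [IsDiscreteValuationRing 𝒪]
    [IsAdicComplete (IsLocalRing.maximalIdeal 𝒪) 𝒪] [Finite (IsLocalRing.ResidueField 𝒪)]
    (ρbar : ResidualGaloisRep (IsLocalRing.ResidueField 𝒪))
    (𝒟 : ∀ ⦃A : Type⦄ [CommRing A] [IsLocalRing A] [Algebra 𝒪 A], GaloisRepAdic A → Prop)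
    (habs : ρbar.IsAbsolutelyIrreducible)
    (h𝒟 : GaloisRep.IsDeformationCondition 𝒪 𝒟)
    (hbar : 𝒟 (GaloisRepAdic.ofResidualGaloisRep ρbar))
    (hfin : GaloisRep.TangentFinite 𝒪 ρbar 𝒟) :
    Nonempty (GaloisRep.DeformationRingData 𝒪 ρbar 𝒟) := by
  obtain ⟨R, i1, i2, i3, i4, i5, i6, hsurj, r, hr, hex, hD, huniv⟩ :=
    exists_universal_on_test habs h𝒟 hbar hfin
  exact ⟨{
    R := R
    residue_surjective := hsurj
    absIrr := habs
    ρ := matRep r hr
    isOfType := hD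
    residual_isEquiv := matRep_residual_isEquiv ρbar r hr hex
    universal := universal_of_universal_on_test habs h𝒟 hsurj r hr hex huniv }⟩

end Fermat.Agent.S53
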