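import Fermat.Statements.S57
import Fermat.Agent.S57.PowerSeriesGood

set_option autoImplicit false
open Algebra Algebra.PatchingLevel

namespace Fermat.Agent.S57

open IsLocalRing RingTheory.Sequence Submodule Pointwise

section Assembly

variable {𝒪 : Type} [CommRing 𝒪] [IsDomain 𝒪] [IsDiscreteValuationRing 𝒪]
  {r : ℕ} {R : Type} [CommRing R] [Algebra 𝒪 R]
  {M : Type} [AddCommGroup M] [Module R M]

/-- The `φ`-semilinear parametrisation `c ↦ ∑ φ (c i) • b i` of `N` by `S^d`. -/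
noncomputable def thetaHom (L : Algebra.PatchingLevel 𝒪 r R M ⊥) :
    (Fin L.d → MvPowerSeries (Fin r) 𝒪) →+ L.N where
  toFun c := ∑ i, L.φ (c i) • L.b i
  map_zero' := by simp
  map_add' c c' := by simp [add_smul, Finset.sum_add_distrib]

theorem thetaHom_apply (L : Algebra.PatchingLevel 𝒪 r R M ⊥)
    (c : Fin L.d → MvPowerSeries (Fin r) 𝒪) :
    thetaHom L c = ∑ i, L.φ (c i) • L.b i := rfl

theorem thetaHom_smul (L : Algebra.PatchingLevel 𝒪 r R M ⊥) (s : MvPowerSeries (Fin r) 𝒪)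
    (c : Fin L.d → MvPowerSeries (Fin r) 𝒪) :
    thetaHom L (s • c) = L.φ s • thetaHom L c := by
  simp only [thetaHom_apply, Pi.smul_apply, smul_eq_mul, map_mul, Finset.smul_sum, mul_smul]

theorem thetaHom_bijective (L : Algebra.PatchingLevel 𝒪 r R M ⊥) :
    Function.Bijective (thetaHom L) := by
  constructor
  · rw [injective_iff_map_eq_zero]
    intro c hc
    have := (L.b_rel c).mp hc
    funext i
    simpa using this i
  · intro x
    obtain ⟨c, hc⟩ := L.b_span x
    exact ⟨c, hc.symm⟩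

/-- The additive equivalence `S^d ≃+ N`. -/
noncomputable def thetaEquiv (L : Algebra.PatchingLevel 𝒪 r R M ⊥) :
    (Fin L.d → MvPowerSeries (Fin r) 𝒪) ≃+ L.N :=
  AddEquiv.ofBijective (thetaHom L) (thetaHom_bijective L)

theorem thetaEquiv_smul (L : Algebra.PatchingLevel 𝒪 r R M ⊥) (s : MvPowerSeries (Fin r) 𝒪)
    (c : Fin L.d → MvPowerSeries (Fin r) 𝒪) :
    thetaEquiv L (s • c) = L.φ s • thetaEquiv L c :=
  thetaHom_smul L s c

theorem d_ne_zero [Nontrivial M] (L : Algebra.PatchingLevel 𝒪 r R M ⊥) : L.d ≠ 0 := by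
  intro hd
  obtain ⟨m, hm⟩ := exists_ne (0 : M)
  obtain ⟨x, rfl⟩ := L.π_surjective m
  obtain ⟨c, hc⟩ := L.b_span x
  haveI : IsEmpty (Fin L.d) := by rw [hd]; infer_instance
  rw [Finset.univ_eq_empty, Finset.sum_empty] at hc
  exact hm (by rw [hc, map_zero])

theorem finite_N (L : Algebra.PatchingLevel 𝒪 r R M ⊥) :
    Module.Finite (MvPowerSeries (Fin r) 𝒪) L.N := by
  refine Module.Finite.of_surjective
    (Fintype.linearCombination (MvPowerSeries (Fin r) 𝒪) L.b) ?_
  intro x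
  obtain ⟨c, hc⟩ := L.b_span x
  exact ⟨fun i => L.φ (c i), by rw [hc, Fintype.linearCombination_apply]⟩

theorem isWeaklyRegular_pi {A : Type} [CommRing A] (d : ℕ) {rs : List A}
    (h : IsWeaklyRegular A rs) : IsWeaklyRegular (Fin d → A) rs := by
  have h1 : IsWeaklyRegular (TensorProduct A (Fin d → A) A) rs :=
    h.isWeaklyRegular_lTensor
  exact (LinearEquiv.isWeaklyRegular_congr (TensorProduct.rid A (Fin d → A)) rs).mp h1

/-- `N` is free over `S = 𝒪⟦X₁,…,X_r⟧`. -/
theorem free_N [Nontrivial M] (L : Algebra.PatchingLevel 𝒪 r R M ⊥) :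
    Module.Free (MvPowerSeries (Fin r) 𝒪) L.N := by
  have hgood := good_mvPowerSeries 𝒪 r
  obtain ⟨xs, hlen, hmem, hreg⟩ :=
    Good.exists_isWeaklyRegular (r + 1) (MvPowerSeries (Fin r) 𝒪) hgood
  haveI : NeZero L.d := ⟨d_ne_zero L⟩
  have hreg1 : IsRegular (Fin L.d → MvPowerSeries (Fin r) 𝒪) xs :=
    IsRegular.of_isWeaklyRegular_of_mem_maximalIdeal _ hmem (isWeaklyRegular_pi L.d hreg)
  have hForall : List.Forall₂
      (fun (a : MvPowerSeries (Fin r) 𝒪) (b : MvPowerSeries (Fin r) 𝒪) =>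
        ∀ x, thetaEquiv L (a • x) = b • thetaEquiv L x) xs (xs.map L.φ) :=
    List.forall₂_map_right_iff.mpr <| List.forall₂_same.mpr fun s _ c => thetaEquiv_smul L s c
  have hreg2 : IsRegular L.N (xs.map L.φ) := (AddEquiv.isRegular_congr hForall).mp hreg1
  have hmem2 : ∀ s ∈ xs.map L.φ, s ∈ maximalIdeal (MvPowerSeries (Fin r) 𝒪) := by
    intro s hs
    rw [mem_maximalIdeal, mem_nonunits_iff]
    intro hu
    apply hreg2.top_ne_smul
    have htop : Ideal.ofList (xs.map L.φ) = ⊤ :=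
      Ideal.eq_top_of_isUnit_mem _ (Ideal.subset_span hs) hu
    rw [htop, Submodule.top_smul]
  haveI := finite_N L
  exact free_of_good (r + 1) (MvPowerSeries (Fin r) 𝒪) hgood L.N (xs.map L.φ)
    (by simpa using hlen) hmem2 hreg2.toIsWeaklyRegular

end Assembly

theorem result
    {𝒪 : Type} [CommRing 𝒪] [IsDomain 𝒪] [IsDiscreteValuationRing 𝒪]
    {r : ℕ} {R : Type} [CommRing R] [Algebra 𝒪 R]
    {M : Type} [AddCommGroup M] [Module R M] [Nontrivial M]
    (L : Algebra.PatchingLevel 𝒪 r R M ⊥) :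
    Module.Free R M ∧ Module.annihilator R M = ⊥ ∧
      RingHom.ker L.ψ = Ideal.span (Set.range fun i : Fin r => L.φ (MvPowerSeries.X i)) := by
  classical
  haveI hfree := free_N L
  haveI hfin := finite_N L
  -- notation
  set I : Ideal (MvPowerSeries (Fin r) 𝒪) :=
    Ideal.span (Set.range fun i : Fin r => L.φ (MvPowerSeries.X i)) with hI
  let B := Module.Free.chooseBasis (MvPowerSeries (Fin r) 𝒪) L.N
  -- `N` is nontrivial
  haveI hNnt : Nontrivial L.N := by
    obtain ⟨m, hm⟩ := exists_ne (0 : M)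
    obtain ⟨x, rfl⟩ := L.π_surjective m
    exact ⟨⟨x, 0, fun h => hm (by rw [h, map_zero])⟩⟩
  haveI : Nonempty (Module.Free.ChooseBasisIndex (MvPowerSeries (Fin r) 𝒪) L.N) :=
    B.index_nonempty
  -- coordinates of elements of `I • ⊤` lie in `I`
  have hcoord : ∀ n ∈ I • (⊤ : Submodule (MvPowerSeries (Fin r) 𝒪) L.N), ∀ i, B.repr n i ∈ I := by
    intro n hn i
    refine Submodule.smul_induction_on hn ?_ ?_
    · intro a ha m _
      rw [map_smul, Finsupp.smul_apply, smul_eq_mul]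
      exact Ideal.mul_mem_right _ _ ha
    · intro x y hx hy
      rw [map_add, Finsupp.add_apply]
      exact Ideal.add_mem _ hx hy
  have hIker : I ≤ RingHom.ker L.ψ := by
    rw [hI, Ideal.span_le]
    rintro _ ⟨i, rfl⟩
    exact L.ψ_φ_X i
  -- key: if `ψ s` kills `M` then `s ∈ I`
  have hkey : ∀ s : MvPowerSeries (Fin r) 𝒪, (∀ m : M, L.ψ s • m = 0) → s ∈ I := by
    intro s hs
    obtain ⟨i₀⟩ := ‹Nonempty (Module.Free.ChooseBasisIndex (MvPowerSeries (Fin r) 𝒪) L.N)›
    have h1 : s • B i₀ ∈ I • (⊤ : Submodule (MvPowerSeries (Fin r) 𝒪) L.N) := by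
      rw [← L.ker_π, L.π_smul]
      exact hs _
    have h2 := hcoord _ h1 i₀
    rwa [map_smul, Finsupp.smul_apply, B.repr_self, Finsupp.single_eq_same, smul_eq_mul,
      mul_one] at h2
  have hker : RingHom.ker L.ψ = I := by
    apply le_antisymm _ hIker
    intro s hs
    apply hkey
    intro m
    rw [RingHom.mem_ker.mp hs, zero_smul]
  have hann : Module.annihilator R M = ⊥ := by
    rw [eq_bot_iff]
    intro a ha
    obtain ⟨s, rfl⟩ := L.ψ_surjective a
    have hs : s ∈ I := hkey s (fun m => Module.mem_annihilator.mp ha m)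
    exact RingHom.mem_ker.mp (hIker hs)
  refine ⟨?_, hann, hker⟩
  -- freeness
  let v : Module.Free.ChooseBasisIndex (MvPowerSeries (Fin r) 𝒪) L.N → M := fun i => L.π (B i)
  have hπsum : ∀ (c : Module.Free.ChooseBasisIndex (MvPowerSeries (Fin r) 𝒪) L.N →
      MvPowerSeries (Fin r) 𝒪), L.π (∑ i, c i • B i) = ∑ i, L.ψ (c i) • v i := by
    intro c
    rw [map_sum]
    exact Finset.sum_congr rfl fun i _ => L.π_smul _ _
  have hli : LinearIndependent R v := by
    rw [Fintype.linearIndependent_iff]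
    intro g hg i
    choose c hc using fun i => L.ψ_surjective (g i)
    have h1 : L.π (∑ i, c i • B i) = 0 := by
      rw [hπsum, ← hg]
      exact Finset.sum_congr rfl fun i _ => by rw [hc]
    have h2 : ∑ i, c i • B i ∈ I • (⊤ : Submodule (MvPowerSeries (Fin r) 𝒪) L.N) :=
      (L.ker_π _).mp h1
    have h3 := hcoord _ h2 i
    rw [B.repr_sum_self] at h3
    rw [← hc i]
    exact RingHom.mem_ker.mp (hIker h3)
  have hsp : ⊤ ≤ Submodule.span R (Set.range v) := by
    intro m _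
    obtain ⟨n, rfl⟩ := L.π_surjective m
    have hn : n = ∑ i, B.repr n i • B i := (B.sum_repr n).symm
    rw [hn, hπsum]
    exact Submodule.sum_mem _ fun i _ =>
      Submodule.smul_mem _ _ (Submodule.subset_span ⟨i, rfl⟩)
  exact Module.Free.of_basis (Module.Basis.mk hli hsp)

end Fermat.Agent.S57
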